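import Fermat.Agent.S43.GS.Rel

/-!
# S43 / GS / Lift : `p^(K-a) Nm HH ⊂ w³ HH`            Mathlib only

`Nm = ∑_{i<n} δ^i = n + C(n,2) w + C(n,3) w² + w³ E`, `n = p^a`, `p ≥ 5`, so `n ∣ C(n,2), C(n,3)`, and `p^K HH = 0`.
-/

set_option autoImplicit false

namespace Fermat.Agent.S43.GS

open Finset

theorem pow_expand {R : Type*} [CommRing R] (w : R) (n : ℕ) :
    ∃ F : R, (1 + w) ^ n = 1 + n * w + (n.choose 2 : ℕ) * w ^ 2 + w ^ 3 * F := by
  induction n with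
  | zero => exact ⟨0, by simp⟩
  | succ n ih =>
    obtain ⟨F, hF⟩ := ih
    refine ⟨F * (1 + w) + (n.choose 2 : ℕ), ?_⟩
    have h2 : (n + 1).choose 2 = n + n.choose 2 := by
      rw [Nat.choose_succ_succ' n 1, Nat.choose_one_right]
    rw [pow_succ, hF, h2]
    push_cast
    ring

theorem geom_expand {R : Type*} [CommRing R] (w : R) (n : ℕ) :
    ∃ F : R, ∑ i ∈ range n, (1 + w) ^ i
      = n + (n.choose 2 : ℕ) * w + (n.choose 3 : ℕ) * w ^ 2 + w ^ 3 * F := by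
  induction n with
  | zero => exact ⟨0, by simp⟩
  | succ n ih =>
    obtain ⟨F, hF⟩ := ih
    obtain ⟨F', hF'⟩ := pow_expand w n
    refine ⟨F + F', ?_⟩
    have h2 : (n + 1).choose 2 = n + n.choose 2 := by
      rw [Nat.choose_succ_succ' n 1, Nat.choose_one_right]
    have h3 : (n + 1).choose 3 = n.choose 2 + n.choose 3 := Nat.choose_succ_succ' n 2
    rw [sum_range_succ, hF, hF', h2, h3]
    push_cast
    ring

/-- the same in any ring. -/
theorem geom_expand' {E : Type*} [Ring E] (d : E) (n : ℕ) :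
    ∃ F : E, ∑ i ∈ range n, d ^ i
      = n + (n.choose 2 : ℕ) * (d - 1) + (n.choose 3 : ℕ) * ((d - 1) * (d - 1))
        + (d - 1) * ((d - 1) * ((d - 1) * F)) := by
  obtain ⟨F, hF⟩ := geom_expand (Polynomial.X : Polynomial ℤ) n
  refine ⟨Polynomial.aeval (d - 1) F, ?_⟩
  have h := congrArg (Polynomial.aeval (d - 1)) hF
  simp only [map_sum, map_pow, map_add, map_mul, map_one, Polynomial.aeval_X, map_natCast] at h
  have h1 : (1 : E) + (d - 1) = d := by abel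
  rw [h1] at h
  rw [h, pow_two, pow_succ, pow_two]
  simp only [mul_assoc]

theorem dvd_choose_two_three {n : ℕ} (h2 : Nat.Coprime n 2) (h3 : Nat.Coprime n 3) :
    n ∣ n.choose 2 ∧ n ∣ n.choose 3 := by
  rcases n with _ | m
  · simp
  constructor
  · have h := Nat.add_one_mul_choose_eq m 1
    exact h2.dvd_of_dvd_mul_right ⟨_, h.symm⟩
  · have h := Nat.add_one_mul_choose_eq m 2
    exact h3.dvd_of_dvd_mul_right ⟨_, h.symm⟩

variable {KK : Type*} [AddCommGroup KK]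

theorem resE_pow_coe (A : AddSubgroup KK) (f : KK →+ KK) (hf : ∀ x ∈ A, f x ∈ A) (i : ℕ) (x : A) :
    (((resE A f hf ^ i) x : A) : KK) = (⇑f)^[i] x := by
  induction i with
  | zero => rfl
  | succ i ih =>
    rw [pow_succ', e_mul, resE_coe, ih, Function.iterate_succ_apply']

/-- `p^(K-a) Nm y ∈ w³ HH`. -/
theorem lift_of_nm (HH : AddSubgroup KK) (d : KK →+ KK) (d_mem : ∀ x ∈ HH, d x ∈ HH)
    {p a K : ℕ} (hp : p.Prime) (hp5 : 5 ≤ p) (haK : a ≤ K) (hK : ∀ x ∈ HH, p ^ K • x = 0)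
    (y : KK) (hy : y ∈ HH) :
    ∃ z ∈ HH, ∃ z1 z2 : KK, z1 = d z - z ∧ z2 = d z1 - z1 ∧
      d z2 - z2 = p ^ (K - a) • ∑ i ∈ range (p ^ a), (⇑d)^[i] y := by
  set d' := resE HH d d_mem with hd'
  obtain ⟨F, hF⟩ := geom_expand' d' (p ^ a)
  have c2 : Nat.Coprime (p ^ a) 2 :=
    Nat.Coprime.pow_left a ((Nat.coprime_primes hp Nat.prime_two).2 (by omega))
  have c3 : Nat.Coprime (p ^ a) 3 :=
    Nat.Coprime.pow_left a ((Nat.coprime_primes hp Nat.prime_three).2 (by omega))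
  obtain ⟨⟨u2, hu2⟩, ⟨u3, hu3⟩⟩ := dvd_choose_two_three c2 c3
  have hK' : ∀ x : HH, p ^ K • x = 0 := fun x => Subtype.ext (hK x x.2)
  have hkill : ∀ (u : ℕ) (x : HH), p ^ (K - a) • ((p ^ a * u) • x) = 0 := fun u x => by
    rw [smul_smul, ← mul_assoc, ← pow_add, Nat.sub_add_cancel haK, mul_smul, hK']
  set y' : HH := ⟨y, hy⟩ with hy'
  have h1 := congrArg (fun f : AddMonoid.End HH => p ^ (K - a) • f y') hF
  simp only [e_add, e_mul, e_nat] at h1
  rw [hu2, hu3] at h1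
  have h0 : p ^ (K - a) • (p ^ a • y') = 0 := by
    have := hkill 1 y'
    rwa [mul_one] at this
  have h4 : p ^ (K - a) • ((d' - 1) ((d' - 1) ((d' - 1) (F y'))))
      = (d' - 1) ((d' - 1) ((d' - 1) (p ^ (K - a) • F y'))) := by simp only [map_nsmul]
  rw [smul_add, smul_add, smul_add, hkill, hkill, h0, zero_add, zero_add, zero_add, h4] at h1
  refine ⟨(p ^ (K - a) • F y' : HH), (p ^ (K - a) • F y' : HH).2, _, _, rfl, rfl, ?_⟩
  have h2 := congrArg Subtype.val h1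
  have h3 : (((∑ i ∈ range (p ^ a), d' ^ i : AddMonoid.End HH) y' : HH) : KK)
      = ∑ i ∈ range (p ^ a), (⇑d)^[i] y := by
    have : (∑ i ∈ range (p ^ a), d' ^ i : AddMonoid.End HH) y' = ∑ i ∈ range (p ^ a), (d' ^ i) y' :=
      AddMonoidHom.finsetSum_apply (fun i => (d' ^ i : HH →+ HH)) (range (p ^ a)) y'
    rw [this, AddSubgroup.val_finsetSum]
    exact sum_congr rfl fun i _ => resE_pow_coe HH d d_mem i y'
  rw [AddSubgroup.coe_nsmul, h3] at h2
  rw [h2]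
  rfl

end Fermat.Agent.S43.GS
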