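import Fermat.Agent.S43.GS.Ring

/-!
# S43 / GS / Main : the relation (R) `Φ - ε = (Σ - 1) κ` on `V[n]`, formally from the tower

`H` = classes on the cover `Y` (at `θ`), `V` = classes on `X₀(Mq)` (at `θ`), `ps = π^* : V → H`, `d = δ` the diamond operator,
`w = d - 1`, `io` = Atkin-Lehner involution on `H`, `Sg = Σ` (tame inertia), `Ph = Φ` (Frobenius lift), `n = p^a`.

INPUT (`Tower`): `ker w = π^* V`; Cayley-Hamilton for `Σ, Φ, ΣΦ` (the three trace operators commute with `G`);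
`io` semilinear (`io δ = δ⁻¹ io`, `io Σ = δ⁻¹ Σ io`, `io Φ = Φ io`, `io = ± 1` on `π^* V`);
`(Σ-1)(Σ-δ) = 0` and `(2ν - w)[Φ,ν] = 0` on `c H` (`c` any operator commuting with `G` and `δ`, e.g. `c = n` or `c = w`);
`N² = 0`, (I2) on `V`; every `x ∈ V[n]` is `w² (c y)`.

OUTPUT (`Tower.exists_kappa`): an additive `G`-equivariant `κ` on `V[n]` with `(Φ - ε) x = (Σ - 1) κ x`.

PROOF: `C₂ = 2 t(ΣΦ) - t(Σ) t(Φ)` commutes with `G` and `δ`, kills `π^* V`, and (parity, from `io`) kills `H[w²]`;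
so `C₂ y₂ = π^* κ(x)` for `w² y₂ = π^* x`; apply `w² (2Φ - t(Φ)) = (2ν - w) C₂` (`ring_main_mul`) to `y₂`.
-/

set_option autoImplicit false

namespace Fermat.Agent.S43.GS

section apply

variable {H : Type*} [AddCommGroup H]

theorem e_mul (f g : AddMonoid.End H) (x : H) : (f * g) x = f (g x) := rfl
theorem e_add (f g : AddMonoid.End H) (x : H) : (f + g) x = f x + g x := rfl
theorem e_sub (f g : AddMonoid.End H) (x : H) : (f - g) x = f x - g x := rfl
theorem e_one (x : H) : (1 : AddMonoid.End H) x = x := rfl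
theorem e_two (x : H) : (2 : AddMonoid.End H) x = 2 • x := AddMonoid.End.ofNat_apply 2 x
theorem e_nat (q : ℕ) (x : H) : (q : AddMonoid.End H) x = q • x := AddMonoid.End.natCast_apply q x

end apply

variable {G H V : Type*} [Group G] [AddCommGroup H] [AddCommGroup V]

/-- the formal properties of the tower `Y → X₀(Mq)` at `θ`. -/
structure Tower (rH : G →* AddMonoid.End H) (rV : G →* AddMonoid.End V) (ps : V →+ H)
    (d di io c : AddMonoid.End H) (Sg Ph : G) (q n : ℕ) (ε e' : ℤ) : Prop where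
  ps_inj : Function.Injective ps
  ps_G : ∀ g v, ps (rV g v) = rH g (ps v)
  d_di : d * di = 1
  di_d : di * d = 1
  d_G : ∀ g, d * rH g = rH g * d
  d_ps : ∀ v, d (ps v) = ps v
  ker_w : ∀ h, d h = h → ∃ v, ps v = h
  tS : ∀ g, Commute (rH Sg + d * rH Sg⁻¹) (rH g)
  tF : ∀ g, Commute (rH Ph + (q : AddMonoid.End H) * rH Ph⁻¹) (rH g)
  tSF : ∀ g, Commute (rH Sg * rH Ph + d * ((q : AddMonoid.End H) * rH Ph⁻¹ * rH Sg⁻¹)) (rH g)
  io_io : io * io = 1
  io_d : io * d = di * io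
  io_S : io * rH Sg = di * rH Sg * io
  io_F : io * rH Ph = rH Ph * io
  e_sq : e' * e' = 1
  io_ps : ∀ v, io (ps v) = e' • ps v
  c_G : ∀ g, c * rH g = rH g * c
  c_d : c * d = d * c
  r1 : ∀ h, (rH Sg - 1) ((rH Sg - 1) (c h)) = (d - 1) ((rH Sg - 1) (c h))
  rE : ∀ h, (2 * (rH Sg - 1) - (d - 1)) ((rH Ph * (rH Sg - 1) - (rH Sg - 1) * rH Ph) (c h)) = 0
  ε_sq : ε * ε = 1
  N2 : ∀ v, (rV Sg - 1) ((rV Sg - 1) v) = 0
  I2a : ∀ v, (rV Sg - 1) (rV Ph v - ε • v) = 0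
  I2b : ∀ v, (rV Sg - 1) v = 0 → rV Ph v = (ε * q) • v
  n_dvd : (n : ℤ) ∣ (q : ℤ) - 1
  two : ∀ v : V, 2 • v = 0 → v = 0
  lift : ∀ x : V, n • x = 0 → ∃ y : H, (d - 1) ((d - 1) (c y)) = ps x

/-- `C₂ = 2 t(ΣΦ) - t(Σ) t(Φ)`. -/
def C2 (rH : G →* AddMonoid.End H) (d : AddMonoid.End H) (Sg Ph : G) (q : ℕ) : AddMonoid.End H :=
  2 * (rH Sg * rH Ph + d * ((q : AddMonoid.End H) * rH Ph⁻¹ * rH Sg⁻¹))
    - (rH Sg + d * rH Sg⁻¹) * (rH Ph + (q : AddMonoid.End H) * rH Ph⁻¹)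

section rep

variable (r : G →* AddMonoid.End V)

theorem rep_mul_inv (g : G) : r g * r g⁻¹ = 1 := by rw [← map_mul, mul_inv_cancel, map_one]
theorem rep_inv_mul (g : G) : r g⁻¹ * r g = 1 := by rw [← map_mul, inv_mul_cancel, map_one]
theorem rep_apply_inv (g : G) (v : V) : r g (r g⁻¹ v) = v := by
  rw [← e_mul, rep_mul_inv, e_one]
theorem rep_inv_apply (g : G) (v : V) : r g⁻¹ (r g v) = v := by
  rw [← e_mul, rep_inv_mul, e_one]

end rep

variable {rH : G →* AddMonoid.End H} {rV : G →* AddMonoid.End V} {ps : V →+ H}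
  {d di io c : AddMonoid.End H} {Sg Ph : G} {q n : ℕ} {ε e' : ℤ}

namespace Tower

variable (T : Tower rH rV ps d di io c Sg Ph q n ε e')
include T

theorem C2_G (g : G) : Commute (C2 rH d Sg Ph q) (rH g) := by
  unfold C2
  exact ((Commute.ofNat_left 2 (rH g)).mul_left (T.tSF g)).sub_left ((T.tS g).mul_left (T.tF g))

theorem d_comm (g : G) : Commute d (rH g) := T.d_G g

theorem C2_d : Commute (C2 rH d Sg Ph q) d := by
  unfold C2
  have h : ∀ g, Commute (rH g) d := fun g => (T.d_comm g).symm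
  have hq : Commute (q : AddMonoid.End H) d := Nat.cast_commute q d
  have hdd : Commute d d := Commute.refl d
  exact ((Commute.ofNat_left 2 d).mul_left
    (((h Sg).mul_left (h Ph)).add_left (hdd.mul_left ((hq.mul_left (h Ph⁻¹)).mul_left (h Sg⁻¹))))).sub_left
    (((h Sg).add_left (hdd.mul_left (h Sg⁻¹))).mul_left ((h Ph).add_left (hq.mul_left (h Ph⁻¹))))

theorem C2_G_apply (g : G) (x : H) : C2 rH d Sg Ph q (rH g x) = rH g (C2 rH d Sg Ph q x) := by
  rw [← e_mul, ← e_mul, (T.C2_G g).eq]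

theorem C2_w_apply (x : H) : C2 rH d Sg Ph q ((d - 1) x) = (d - 1) (C2 rH d Sg Ph q x) := by
  rw [e_sub, e_sub, e_one, e_one, map_sub, ← e_mul, ← e_mul, T.C2_d.eq]

/-! ### level `Mq` -/

theorem V_inv (u : V) : rV Sg⁻¹ u = 2 • u - rV Sg u := by
  have h := T.N2 u
  simp only [e_sub, e_one, map_sub] at h
  -- h : Σ Σ u - Σ u - (Σ u - u) = 0
  have h1 : rV Sg (2 • u - rV Sg u) = u := by
    rw [map_sub, map_nsmul, two_nsmul]
    have : rV Sg u + rV Sg u - rV Sg (rV Sg u) = u - (rV Sg (rV Sg u) - rV Sg u - (rV Sg u - u)) := by abel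
    rw [this, h, sub_zero]
  calc rV Sg⁻¹ u = rV Sg⁻¹ (rV Sg (2 • u - rV Sg u)) := by rw [h1]
    _ = _ := rep_inv_apply rV Sg _

theorem V_SF (v : V) : rV Sg (rV Ph v) = rV Ph v + ε • (rV Sg v - v) := by
  have h := T.I2a v
  simp only [e_sub, e_one, map_sub, map_zsmul] at h
  have : rV Sg (rV Ph v) = (rV Sg (rV Ph v) - rV Ph v - ε • (rV Sg v - v)) + rV Ph v
      + ε • (rV Sg v - v) := by abel
  rw [this, h, zero_add]

theorem V_Fs {u : V} (hu : (rV Sg - 1) u = 0) : q • rV Ph⁻¹ u = ε • u := by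
  have h := T.I2b u hu
  have h1 : u = (ε * q) • rV Ph⁻¹ u := by
    have := congrArg (rV Ph⁻¹) h
    rw [rep_inv_apply, map_zsmul] at this
    exact this
  calc q • rV Ph⁻¹ u = (ε * ε) • ((q : ℤ) • rV Ph⁻¹ u) := by rw [T.ε_sq, one_smul, natCast_zsmul]
    _ = ε • ((ε * q) • rV Ph⁻¹ u) := by rw [smul_smul, smul_smul, mul_assoc]
    _ = ε • u := by rw [← h1]

theorem V_tF (x : V) : rV Ph x + q • rV Ph⁻¹ x = (ε * (1 + q)) • x := by
  set u := rV Ph x - ε • x with hu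
  have h1 := T.V_Fs (T.I2a x)
  rw [← hu] at h1
  -- q Φ⁻¹ u = ε u ; u = Φ x - ε x
  have h2 : q • rV Ph⁻¹ u = q • x - ε • (q • rV Ph⁻¹ x) := by
    rw [hu, map_sub, rep_inv_apply, map_zsmul, smul_sub, smul_comm q ε]
  have h3 : ε • (q • rV Ph⁻¹ x) = q • x - ε • u := by rw [← h1, h2]; abel
  have h4 : q • rV Ph⁻¹ x = ε • (q • x) - u := by
    calc q • rV Ph⁻¹ x = (ε * ε) • (q • rV Ph⁻¹ x) := by rw [T.ε_sq, one_smul]
      _ = ε • (ε • (q • rV Ph⁻¹ x)) := by rw [smul_smul]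
      _ = ε • (q • x) - (ε * ε) • u := by rw [h3, smul_sub, smul_smul]
      _ = _ := by rw [T.ε_sq, one_smul]
  rw [h4, hu, mul_add, mul_one, add_smul, mul_smul, natCast_zsmul]
  abel

theorem C2_ps (v : V) : C2 rH d Sg Ph q (ps v) = 0 := by
  have hN : (rV Sg - 1) (rV Sg v - v) = 0 := T.N2 v
  have h1 : q • rV Ph⁻¹ (rV Sg⁻¹ v) = q • rV Ph⁻¹ v - ε • (rV Sg v - v) := by
    have : rV Sg⁻¹ v = v - (rV Sg v - v) := by rw [T.V_inv, two_nsmul]; abel
    rw [this, map_sub, smul_sub, T.V_Fs hN]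
  have h2 : ∀ u : V, rV Sg u + rV Sg⁻¹ u = 2 • u := fun u => by rw [T.V_inv]; abel
  have key : 2 • (rV Sg (rV Ph v) + q • rV Ph⁻¹ (rV Sg⁻¹ v))
      - (rV Sg (rV Ph v + q • rV Ph⁻¹ v) + rV Sg⁻¹ (rV Ph v + q • rV Ph⁻¹ v)) = 0 := by
    rw [h2, h1, T.V_SF]
    have : rV Ph v + ε • (rV Sg v - v) + (q • rV Ph⁻¹ v - ε • (rV Sg v - v))
        = rV Ph v + q • rV Ph⁻¹ v := by abel
    rw [this, sub_self]
  have h3 : C2 rH d Sg Ph q (ps v) = ps (2 • (rV Sg (rV Ph v) + q • rV Ph⁻¹ (rV Sg⁻¹ v))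
      - (rV Sg (rV Ph v + q • rV Ph⁻¹ v) + rV Sg⁻¹ (rV Ph v + q • rV Ph⁻¹ v))) := by
    unfold C2
    simp only [e_sub, e_mul, e_add, e_two, e_nat, ← T.ps_G, ← map_nsmul, T.d_ps, ← map_add, ← map_sub]
  rw [h3, key, map_zero]

/-! ### the Atkin-Lehner symmetry -/

theorem d_io : d * io = io * di := by
  calc d * io = d * io * (d * di) := by rw [T.d_di, mul_one]
    _ = d * (io * d) * di := by noncomm_ring
    _ = d * (di * io) * di := by rw [T.io_d]
    _ = (d * di) * io * di := by noncomm_ring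
    _ = io * di := by rw [T.d_di, one_mul]

theorem di_G (g : G) : di * rH g = rH g * di := by
  calc di * rH g = di * rH g * (d * di) := by rw [T.d_di, mul_one]
    _ = di * (rH g * d) * di := by noncomm_ring
    _ = di * (d * rH g) * di := by rw [T.d_G]
    _ = (di * d) * rH g * di := by noncomm_ring
    _ = rH g * di := by rw [T.di_d, one_mul]

theorem io_Si : io * rH Sg⁻¹ = d * rH Sg⁻¹ * io := by
  calc io * rH Sg⁻¹ = (d * rH Sg⁻¹ * (di * rH Sg)) * io * rH Sg⁻¹ := by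
        have : d * rH Sg⁻¹ * (di * rH Sg) = 1 := by
          rw [T.di_G, ← mul_assoc, mul_assoc d, rep_inv_mul, mul_one, T.d_di]
        rw [this, one_mul]
    _ = d * rH Sg⁻¹ * (di * rH Sg * io) * rH Sg⁻¹ := by noncomm_ring
    _ = d * rH Sg⁻¹ * (io * rH Sg) * rH Sg⁻¹ := by rw [T.io_S]
    _ = d * rH Sg⁻¹ * io * (rH Sg * rH Sg⁻¹) := by noncomm_ring
    _ = _ := by rw [rep_mul_inv, mul_one]

theorem io_Fi : io * rH Ph⁻¹ = rH Ph⁻¹ * io := by
  calc io * rH Ph⁻¹ = (rH Ph⁻¹ * rH Ph) * io * rH Ph⁻¹ := by rw [rep_inv_mul, one_mul]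
    _ = rH Ph⁻¹ * (rH Ph * io) * rH Ph⁻¹ := by noncomm_ring
    _ = rH Ph⁻¹ * (io * rH Ph) * rH Ph⁻¹ := by rw [T.io_F]
    _ = rH Ph⁻¹ * io * (rH Ph * rH Ph⁻¹) := by noncomm_ring
    _ = _ := by rw [rep_mul_inv, mul_one]

theorem io_C2 : io * C2 rH d Sg Ph q = di * C2 rH d Sg Ph q * io := by
  have hq : ∀ x : AddMonoid.End H, x * (q : AddMonoid.End H) = (q : AddMonoid.End H) * x :=
    fun x => (Nat.cast_commute q x).eq.symm
  have hTS : io * (rH Sg + d * rH Sg⁻¹) = di * (rH Sg + d * rH Sg⁻¹) * io := by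
    have h1 : io * (d * rH Sg⁻¹) = di * (d * rH Sg⁻¹) * io := by
      calc io * (d * rH Sg⁻¹) = (io * d) * rH Sg⁻¹ := by noncomm_ring
        _ = di * (io * rH Sg⁻¹) := by rw [T.io_d]; noncomm_ring
        _ = _ := by rw [T.io_Si]; noncomm_ring
    rw [mul_add, T.io_S, h1]; noncomm_ring
  have hTF : io * (rH Ph + (q : AddMonoid.End H) * rH Ph⁻¹)
      = (rH Ph + (q : AddMonoid.End H) * rH Ph⁻¹) * io := by
    rw [mul_add, add_mul, T.io_F, ← mul_assoc, hq, mul_assoc, T.io_Fi, mul_assoc]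
  have hTSF : io * (rH Sg * rH Ph + d * ((q : AddMonoid.End H) * rH Ph⁻¹ * rH Sg⁻¹))
      = di * (rH Sg * rH Ph + d * ((q : AddMonoid.End H) * rH Ph⁻¹ * rH Sg⁻¹)) * io := by
    have h1 : io * (rH Sg * rH Ph) = di * (rH Sg * rH Ph) * io := by
      calc io * (rH Sg * rH Ph) = (io * rH Sg) * rH Ph := by noncomm_ring
        _ = di * rH Sg * (io * rH Ph) := by rw [T.io_S]; noncomm_ring
        _ = _ := by rw [T.io_F]; noncomm_ring
    have h2 : io * (d * ((q : AddMonoid.End H) * rH Ph⁻¹ * rH Sg⁻¹))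
        = di * (d * ((q : AddMonoid.End H) * rH Ph⁻¹ * rH Sg⁻¹)) * io := by
      calc io * (d * ((q : AddMonoid.End H) * rH Ph⁻¹ * rH Sg⁻¹))
          = (io * d) * (q : AddMonoid.End H) * rH Ph⁻¹ * rH Sg⁻¹ := by noncomm_ring
        _ = di * ((io * (q : AddMonoid.End H)) * rH Ph⁻¹ * rH Sg⁻¹) := by rw [T.io_d]; noncomm_ring
        _ = di * ((q : AddMonoid.End H) * (io * rH Ph⁻¹) * rH Sg⁻¹) := by rw [hq]; noncomm_ring
        _ = di * ((q : AddMonoid.End H) * rH Ph⁻¹ * (io * rH Sg⁻¹)) := by rw [T.io_Fi]; noncomm_ring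
        _ = di * ((q : AddMonoid.End H) * (rH Ph⁻¹ * d) * rH Sg⁻¹ * io) := by rw [T.io_Si]; noncomm_ring
        _ = di * ((q : AddMonoid.End H) * (d * rH Ph⁻¹) * rH Sg⁻¹ * io) := by rw [T.d_G]
        _ = di * (((q : AddMonoid.End H) * d) * rH Ph⁻¹ * rH Sg⁻¹ * io) := by noncomm_ring
        _ = di * ((d * (q : AddMonoid.End H)) * rH Ph⁻¹ * rH Sg⁻¹ * io) := by rw [hq]
        _ = _ := by noncomm_ring
    rw [mul_add, h1, h2]; noncomm_ring
  unfold C2
  calc io * (2 * (rH Sg * rH Ph + d * ((q : AddMonoid.End H) * rH Ph⁻¹ * rH Sg⁻¹))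
        - (rH Sg + d * rH Sg⁻¹) * (rH Ph + (q : AddMonoid.End H) * rH Ph⁻¹))
      = 2 * (io * (rH Sg * rH Ph + d * ((q : AddMonoid.End H) * rH Ph⁻¹ * rH Sg⁻¹)))
        - (io * (rH Sg + d * rH Sg⁻¹)) * (rH Ph + (q : AddMonoid.End H) * rH Ph⁻¹) := by noncomm_ring
    _ = 2 * (di * (rH Sg * rH Ph + d * ((q : AddMonoid.End H) * rH Ph⁻¹ * rH Sg⁻¹)) * io)
        - di * (rH Sg + d * rH Sg⁻¹) * (io * (rH Ph + (q : AddMonoid.End H) * rH Ph⁻¹)) := by
          rw [hTSF, hTS]; noncomm_ring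
    _ = _ := by rw [hTF]; noncomm_ring

theorem di_ps (v : V) : di (ps v) = ps v := by
  calc di (ps v) = di (d (ps v)) := by rw [T.d_ps]
    _ = ps v := by rw [← e_mul, T.di_d, e_one]

theorem exists_of_w {h : H} (hh : (d - 1) h = 0) : ∃ v, ps v = h :=
  T.ker_w h (by rw [e_sub, e_one] at hh; exact sub_eq_zero.1 hh)

theorem w_ps (v : V) : (d - 1) (ps v) = 0 := by rw [e_sub, e_one, T.d_ps, sub_self]

/-- **parity**: `C₂` kills the elements `y` with `w y ∈ π^* V`. -/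
theorem C2_first {y : H} {x : V} (hy : (d - 1) y = ps x) : C2 rH d Sg Ph q y = 0 := by
  set c := C2 rH d Sg Ph q y with hc
  have h1 : (d - 1) c = 0 := by rw [hc, ← T.C2_w_apply, hy, T.C2_ps]
  obtain ⟨g1, hg1⟩ := T.exists_of_w h1
  -- `w (io y) = - e' ps x`
  have h2 : (d - 1) (io y) = -(e' • ps x) := by
    have h3 : di y - y = -(ps x) := by
      have : di (ps x) = y - di y := by
        rw [← hy, e_sub, e_one, map_sub, ← e_mul, T.di_d, e_one]
      rw [T.di_ps] at this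
      rw [this]; abel
    rw [e_sub, e_one, ← e_mul, T.d_io, e_mul, ← map_sub, h3, map_neg, T.io_ps]
  have h4 : (d - 1) (io y + e' • y) = 0 := by
    rw [map_add, map_zsmul, h2, hy]; abel
  obtain ⟨v1, hv1⟩ := T.exists_of_w h4
  have h5 : C2 rH d Sg Ph q (io y) = -(e' • c) := by
    have : io y = ps v1 - e' • y := by rw [hv1]; abel
    rw [this, map_sub, T.C2_ps, map_zsmul, zero_sub]
  have h6 : C2 rH d Sg Ph q (io y) = e' • c := by
    have h7 : io c = di (C2 rH d Sg Ph q (io y)) := by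
      rw [hc, ← e_mul, T.io_C2, e_mul, e_mul]
    have h8 : C2 rH d Sg Ph q (io y) = d (io c) := by
      rw [h7, ← e_mul d di, T.d_di, e_one]
    rw [h8, ← hg1, T.io_ps, map_zsmul, T.d_ps]
  have h9 : c = -c := by
    have h0 : e' • c = -(e' • c) := h6.symm.trans h5
    have := congrArg (fun z => e' • z) h0
    simp only [smul_neg, smul_smul, T.e_sq, one_smul] at this
    exact this
  have h10 : 2 • g1 = 0 := by
    apply T.ps_inj
    rw [map_nsmul, hg1, map_zero, two_nsmul]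
    nth_rewrite 1 [h9]
    exact neg_add_cancel c
  rw [← hg1, T.two g1 h10, map_zero]

/-- `C₂ y₂ ∈ π^* V` for `w² y₂ ∈ π^* V`, and it only depends on `w² y₂`. -/
theorem exists_C2_second {y : H} {x : V} (hy : (d - 1) ((d - 1) y) = ps x) :
    ∃ k : V, ps k = C2 rH d Sg Ph q y :=
  T.exists_of_w (by rw [← T.C2_w_apply, T.C2_first hy])

theorem C2_second_unique {y y' : H} (h : (d - 1) ((d - 1) y) = (d - 1) ((d - 1) y')) :
    C2 rH d Sg Ph q y = C2 rH d Sg Ph q y' := by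
  have h1 : (d - 1) ((d - 1) (y - y')) = 0 := by rw [map_sub, map_sub, h, sub_self]
  obtain ⟨v, hv⟩ := T.exists_of_w h1
  have := T.C2_first hv.symm
  rw [map_sub] at this
  exact sub_eq_zero.1 this

/-- the Cayley-Hamilton identity on `c H`. -/
theorem ch_identity (y : H) :
    (d - 1) ((d - 1) (2 • rH Ph (c y) - (rH Ph (c y) + q • rH Ph⁻¹ (c y))))
      = 2 • (rH Sg (C2 rH d Sg Ph q (c y)) - C2 rH d Sg Ph q (c y))
        - (d - 1) (C2 rH d Sg Ph q (c y)) := by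
  have hcq : c * ((q : AddMonoid.End H) * rH Ph⁻¹) = ((q : AddMonoid.End H) * rH Ph⁻¹) * c := by
    rw [← mul_assoc, ← (Nat.cast_commute q c).eq, mul_assoc, T.c_G, mul_assoc]
  have h := ring_main_mul' c
    (rH Sg) (rH Sg⁻¹) (rH Ph) ((q : AddMonoid.End H) * rH Ph⁻¹) d
    (T.c_G Sg) (T.c_G Sg⁻¹) (T.c_G Ph) hcq T.c_d
    (rep_mul_inv rH Sg) (T.d_G Sg) (T.d_G Ph)
    (T.tF Sg⁻¹).eq
    (by
      ext h
      have := T.r1 h
      simp only [e_mul, e_sub, AddMonoid.End.zero_apply] at this ⊢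
      rw [this, sub_self])
    (by
      ext h
      have := T.rE h
      simp only [e_mul, AddMonoid.End.zero_apply] at this ⊢
      exact this)
  have h' := congrArg (fun f : AddMonoid.End H => f y) h
  have hC : (2 * (rH Sg * rH Ph + d * ((q : AddMonoid.End H) * rH Ph⁻¹ * rH Sg⁻¹))
      - (rH Sg + d * rH Sg⁻¹) * (rH Ph + (q : AddMonoid.End H) * rH Ph⁻¹)) = C2 rH d Sg Ph q := rfl
  rw [hC] at h'
  simp only [e_mul] at h'
  simp only [e_sub (2 * rH Ph), e_sub (2 * (rH Sg - 1)), e_mul, e_two, e_add, e_nat,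
    e_sub (rH Sg) 1, e_one] at h'
  exact h'

/-- **(R)**. -/
theorem exists_kappa : ∃ κ : V → V,
    (∀ x y, n • x = 0 → n • y = 0 → κ (x + y) = κ x + κ y) ∧
    (∀ g x, n • x = 0 → κ (rV g x) = rV g (κ x)) ∧
    (∀ x, n • x = 0 → rV Ph x - ε • x = rV Sg (κ x) - κ x) := by
  classical
  have hex : ∀ x : V, ∃ k : V, n • x = 0 →
      ∀ y : H, (d - 1) ((d - 1) y) = ps x → C2 rH d Sg Ph q y = ps k := by
    intro x
    by_cases hx : n • x = 0
    · obtain ⟨y0, hy0⟩ := T.lift x hx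
      obtain ⟨k, hk⟩ := T.exists_C2_second hy0
      exact ⟨k, fun _ y hy => by rw [hk]; exact T.C2_second_unique (by rw [hy, hy0])⟩
    · exact ⟨0, fun h => absurd h hx⟩
  choose κ hκ using hex
  refine ⟨κ, ?_, ?_, ?_⟩
  · intro x y hx hy
    have hxy : n • (x + y) = 0 := by rw [smul_add, hx, hy, add_zero]
    obtain ⟨a, ha⟩ := T.lift x hx
    obtain ⟨b, hb⟩ := T.lift y hy
    apply T.ps_inj
    rw [map_add, ← hκ x hx _ ha, ← hκ y hy _ hb, ← map_add]
    exact (hκ (x + y) hxy _ (by rw [map_add, map_add, ha, hb, map_add])).symm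
  · intro g x hx
    have hgx : n • rV g x = 0 := by rw [← map_nsmul, hx, map_zero]
    obtain ⟨a, ha⟩ := T.lift x hx
    apply T.ps_inj
    rw [T.ps_G, ← hκ x hx _ ha, ← T.C2_G_apply]
    refine (hκ (rV g x) hgx _ ?_).symm
    have hw : ∀ z : H, (d - 1) (rH g z) = rH g ((d - 1) z) := fun z => by
      rw [e_sub, e_sub, e_one, e_one, map_sub, ← e_mul, ← e_mul, T.d_G]
    rw [hw, hw, ha, T.ps_G]
  · intro x hx
    obtain ⟨a, ha⟩ := T.lift x hx
    have hk := hκ x hx _ ha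
    have h := T.ch_identity a
    generalize c a = z at ha hk h
    have hr : 2 • (rH Sg (ps (κ x)) - ps (κ x)) = ps (2 • (rV Sg (κ x) - κ x)) := by
      rw [map_nsmul, map_sub, T.ps_G]
    rw [hk, T.w_ps, sub_zero, hr] at h
    -- left hand side
    have hw : ∀ (g : G) (z : H), (d - 1) (rH g z) = rH g ((d - 1) z) := fun g z => by
      rw [e_sub, e_sub, e_one, e_one, map_sub, ← e_mul, ← e_mul, T.d_G]
    have hl : (d - 1) ((d - 1) (2 • rH Ph z - (rH Ph z + q • rH Ph⁻¹ z)))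
        = ps (2 • rV Ph x - (rV Ph x + q • rV Ph⁻¹ x)) := by
      simp only [map_sub, map_add, map_nsmul, hw, ha, T.ps_G]
    rw [hl] at h
    have h1 := T.ps_inj h
    rw [T.V_tF] at h1
    obtain ⟨c, hc⟩ := T.n_dvd
    have h2 : (ε * (1 + q)) • x = 2 • (ε • x) := by
      have : (ε * (1 + q) : ℤ) = 2 * ε + (ε * c) * n := by
        have : (q : ℤ) = 1 + n * c := by linarith
        rw [this]; ring
      rw [this, add_smul, mul_smul (ε * c), natCast_zsmul, hx, smul_zero, add_zero, mul_smul]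
      rw [← natCast_zsmul]; rfl
    rw [h2, ← smul_sub] at h1
    have h3 : 2 • ((rV Ph x - ε • x) - (rV Sg (κ x) - κ x)) = 0 := by
      rw [smul_sub, h1, sub_self]
    exact sub_eq_zero.1 (T.two _ h3)

end Tower

end Fermat.Agent.S43.GS
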