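import Fermat.Agent.S43.GS.Main

/-!
# S43 / GS / Rel : the relation (TR), RELATIVE form (ambient groups, stable subgroups)       Mathlib only

`KK` (classes on the tower), `KV` (classes on `X₀(Mq)`), `HH ≤ KK`, `VV ≤ KV`; all hypotheses are elementwise with
membership hypotheses.  The defects `(Σ-1)(Σ-δ)` and `ΦΣ - ΣΦ` only have to vanish on `w HH`, `w = δ - 1`, and
`π^* (VV[n]) ⊂ w³ HH`.   The conclusion is verbatim the shape of `Fin.Ctx.TR`.
-/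

set_option autoImplicit false

namespace Fermat.Agent.S43.GS

variable {G KK KV : Type*} [Group G] [AddCommGroup KK] [AddCommGroup KV]

/-- restriction of an additive endomorphism to a stable subgroup. -/
def resE (A : AddSubgroup KK) (f : KK →+ KK) (hf : ∀ x ∈ A, f x ∈ A) : AddMonoid.End A :=
  (f.comp A.subtype).codRestrict A (fun x => hf x x.2)

theorem resE_coe (A : AddSubgroup KK) (f : KK →+ KK) (hf : ∀ x ∈ A, f x ∈ A) (x : A) :
    ((resE A f hf x : A) : KK) = f x := rfl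

/-- the formal properties of the tower, relative form. -/
structure RelTower (gH : G → KK →+ KK) (gV : G → KV →+ KV) (HH : AddSubgroup KK)
    (VV : AddSubgroup KV) (ps : KV →+ KK) (d di io : KK →+ KK) (Sg Ph : G) (q n : ℕ) (ε e' : ℤ) :
    Prop where
  gH_one : ∀ x ∈ HH, gH 1 x = x
  gH_mul : ∀ g h, ∀ x ∈ HH, gH (g * h) x = gH g (gH h x)
  gV_one : ∀ x ∈ VV, gV 1 x = x
  gV_mul : ∀ g h, ∀ x ∈ VV, gV (g * h) x = gV g (gV h x)
  gH_mem : ∀ g, ∀ x ∈ HH, gH g x ∈ HH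
  gV_mem : ∀ g, ∀ x ∈ VV, gV g x ∈ VV
  ps_mem : ∀ x ∈ VV, ps x ∈ HH
  d_mem : ∀ x ∈ HH, d x ∈ HH
  di_mem : ∀ x ∈ HH, di x ∈ HH
  io_mem : ∀ x ∈ HH, io x ∈ HH
  ps_inj : ∀ x ∈ VV, ps x = 0 → x = 0
  ps_G : ∀ g, ∀ v ∈ VV, ps (gV g v) = gH g (ps v)
  d_di : ∀ x ∈ HH, d (di x) = x
  di_d : ∀ x ∈ HH, di (d x) = x
  d_G : ∀ g, ∀ x ∈ HH, d (gH g x) = gH g (d x)
  d_ps : ∀ v ∈ VV, d (ps v) = ps v
  ker_w : ∀ h ∈ HH, d h = h → ∃ v ∈ VV, ps v = h
  tS : ∀ g, ∀ x ∈ HH, gH g (gH Sg x + d (gH Sg⁻¹ x)) = gH Sg (gH g x) + d (gH Sg⁻¹ (gH g x))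
  tF : ∀ g, ∀ x ∈ HH, gH g (gH Ph x + q • gH Ph⁻¹ x) = gH Ph (gH g x) + q • gH Ph⁻¹ (gH g x)
  tSF : ∀ g, ∀ x ∈ HH, gH g (gH Sg (gH Ph x) + d (q • gH Ph⁻¹ (gH Sg⁻¹ x)))
    = gH Sg (gH Ph (gH g x)) + d (q • gH Ph⁻¹ (gH Sg⁻¹ (gH g x)))
  io_io : ∀ x ∈ HH, io (io x) = x
  io_d : ∀ x ∈ HH, io (d x) = di (io x)
  io_S : ∀ x ∈ HH, io (gH Sg x) = di (gH Sg (io x))
  io_F : ∀ x ∈ HH, io (gH Ph x) = gH Ph (io x)
  e_sq : e' * e' = 1
  io_ps : ∀ v ∈ VV, io (ps v) = e' • ps v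
  /-- `(Σ - 1)(Σ - δ) = 0` on `w HH` -/
  r1 : ∀ h ∈ HH, gH Sg (gH Sg (d h - h)) + d (d h - h) = d (gH Sg (d h - h)) + gH Sg (d h - h)
  /-- `Φ Σ = Σ Φ` on `w HH` -/
  rE : ∀ h ∈ HH, gH Ph (gH Sg (d h - h)) = gH Sg (gH Ph (d h - h))
  ε_sq : ε * ε = 1
  N2 : ∀ v ∈ VV, gV Sg (gV Sg v - v) = gV Sg v - v
  I2a : ∀ v ∈ VV, gV Sg (gV Ph v - ε • v) = gV Ph v - ε • v
  I2b : ∀ v ∈ VV, gV Sg v = v → gV Ph v = (ε * q) • v
  n_dvd : (n : ℤ) ∣ (q : ℤ) - 1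
  two : ∀ v ∈ VV, 2 • v = 0 → v = 0
  /-- `π^* (VV[n]) ⊂ w³ HH` -/
  lift : ∀ x ∈ VV, n • x = 0 → ∃ y ∈ HH, ∃ y1 y2 : KK, y1 = d y - y ∧ y2 = d y1 - y1 ∧ d y2 - y2 = ps x

namespace RelTower

variable {gH : G → KK →+ KK} {gV : G → KV →+ KV} {HH : AddSubgroup KK}
  {VV : AddSubgroup KV} {ps : KV →+ KK} {d di io : KK →+ KK} {Sg Ph : G} {q n : ℕ} {ε e' : ℤ}

variable (R : RelTower gH gV HH VV ps d di io Sg Ph q n ε e')
include R

/-- the action on `HH`. -/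
def rH : G →* AddMonoid.End HH where
  toFun g := resE HH (gH g) (R.gH_mem g)
  map_one' := AddMonoidHom.ext fun x => Subtype.ext (R.gH_one x x.2)
  map_mul' g h := AddMonoidHom.ext fun x => Subtype.ext (R.gH_mul g h x x.2)

/-- the action on `VV`. -/
def rV : G →* AddMonoid.End VV where
  toFun g := resE VV (gV g) (R.gV_mem g)
  map_one' := AddMonoidHom.ext fun x => Subtype.ext (R.gV_one x x.2)
  map_mul' g h := AddMonoidHom.ext fun x => Subtype.ext (R.gV_mul g h x x.2)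

/-- `π^*`. -/
def ps' : VV →+ HH := (ps.comp VV.subtype).codRestrict HH (fun x => R.ps_mem x x.2)

theorem rH_coe (g : G) (x : HH) : ((R.rH g x : HH) : KK) = gH g x := rfl
theorem rV_coe (g : G) (x : VV) : ((R.rV g x : VV) : KV) = gV g x := rfl
theorem ps'_coe (x : VV) : ((R.ps' x : HH) : KK) = ps x := rfl

theorem tower : Tower R.rH R.rV R.ps' (resE HH d R.d_mem) (resE HH di R.di_mem) (resE HH io R.io_mem)
    (resE HH d R.d_mem - 1) Sg Ph q n ε e' where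
  ps_inj := by
    rw [injective_iff_map_eq_zero]
    intro x hx
    exact Subtype.ext (R.ps_inj x x.2 (congrArg Subtype.val hx))
  ps_G g v := Subtype.ext (R.ps_G g v v.2)
  d_di := AddMonoidHom.ext fun x => Subtype.ext (R.d_di x x.2)
  di_d := AddMonoidHom.ext fun x => Subtype.ext (R.di_d x x.2)
  d_G g := AddMonoidHom.ext fun x => Subtype.ext (R.d_G g x x.2)
  d_ps v := Subtype.ext (R.d_ps v v.2)
  ker_w h hh := by
    obtain ⟨v, hv, hvh⟩ := R.ker_w h h.2 (congrArg Subtype.val hh)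
    exact ⟨⟨v, hv⟩, Subtype.ext hvh⟩
  tS g := AddMonoidHom.ext fun x => Subtype.ext (R.tS g x x.2).symm
  tF g := by
    have key : ∀ x : HH, (R.rH Ph + (q : AddMonoid.End HH) * R.rH Ph⁻¹) (R.rH g x)
        = R.rH g ((R.rH Ph + (q : AddMonoid.End HH) * R.rH Ph⁻¹) x) := fun x => Subtype.ext (by
      simp only [e_mul, e_add, e_nat, AddSubgroup.coe_add, AddSubgroup.coe_nsmul, rH_coe]
      exact (R.tF g x x.2).symm)
    exact DFunLike.ext _ _ key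
  tSF g := by
    have key : ∀ x : HH, (R.rH Sg * R.rH Ph
          + resE HH d R.d_mem * ((q : AddMonoid.End HH) * R.rH Ph⁻¹ * R.rH Sg⁻¹)) (R.rH g x)
        = R.rH g ((R.rH Sg * R.rH Ph
          + resE HH d R.d_mem * ((q : AddMonoid.End HH) * R.rH Ph⁻¹ * R.rH Sg⁻¹)) x) :=
      fun x => Subtype.ext (by
        simp only [e_mul, e_add, e_nat, AddSubgroup.coe_add, AddSubgroup.coe_nsmul, rH_coe, resE_coe]
        exact (R.tSF g x x.2).symm)
    exact DFunLike.ext _ _ key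
  io_io := AddMonoidHom.ext fun x => Subtype.ext (R.io_io x x.2)
  io_d := AddMonoidHom.ext fun x => Subtype.ext (R.io_d x x.2)
  io_S := AddMonoidHom.ext fun x => Subtype.ext (R.io_S x x.2)
  io_F := AddMonoidHom.ext fun x => Subtype.ext (R.io_F x x.2)
  e_sq := R.e_sq
  io_ps v := Subtype.ext (R.io_ps v v.2)
  c_G g := by
    have key : ∀ x : HH, (resE HH d R.d_mem - 1) (R.rH g x) = R.rH g ((resE HH d R.d_mem - 1) x) :=
      fun x => Subtype.ext (by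
        simp only [e_sub, e_one, AddSubgroup.coe_sub, rH_coe, resE_coe, map_sub]
        rw [R.d_G g x x.2])
    exact DFunLike.ext _ _ key
  c_d := by rw [sub_mul, mul_sub, one_mul, mul_one]
  r1 h := Subtype.ext (by
    have := R.r1 h h.2
    simp only [e_sub, e_one, AddSubgroup.coe_sub, rH_coe, resE_coe]
    generalize d (h : KK) - (h : KK) = z at this ⊢
    have e1 : gH Sg (gH Sg z) = d (gH Sg z) + gH Sg z - d z := by rw [← this]; abel
    rw [map_sub, map_sub, e1]; abel)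
  rE h := by
    have h0 : (R.rH Ph * (R.rH Sg - 1) - (R.rH Sg - 1) * R.rH Ph) ((resE HH d R.d_mem - 1) h) = 0 := by
      apply Subtype.ext
      have := R.rE h h.2
      simp only [e_mul, e_sub, e_one, AddSubgroup.coe_sub, rH_coe, resE_coe, AddSubgroup.coe_zero]
      rw [map_sub, this, sub_self]
    rw [h0, map_zero]
  ε_sq := R.ε_sq
  N2 v := Subtype.ext (by
    have := R.N2 v v.2
    simp only [e_sub, e_one, AddSubgroup.coe_sub, rV_coe, AddSubgroup.coe_zero]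
    rw [this, sub_self])
  I2a v := Subtype.ext (by
    have := R.I2a v v.2
    simp only [e_sub, e_one, AddSubgroup.coe_sub, rV_coe, AddSubgroup.coe_zero, AddSubgroup.coe_zsmul]
    rw [this, sub_self])
  I2b v hv := Subtype.ext (by
    have h1 : gV Sg v = v := by
      have := congrArg Subtype.val hv
      simp only [e_sub, e_one, AddSubgroup.coe_sub, rV_coe, AddSubgroup.coe_zero] at this
      exact sub_eq_zero.1 this
    exact R.I2b v v.2 h1)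
  n_dvd := R.n_dvd
  two v hv := Subtype.ext (R.two v v.2 (congrArg Subtype.val hv))
  lift x hx := by
    obtain ⟨y, hy, y1, y2, rfl, rfl, h3⟩ := R.lift x x.2 (congrArg Subtype.val hx)
    exact ⟨⟨y, hy⟩, Subtype.ext h3⟩

/-- **(TR)**, in the shape of `Fin.Ctx.TR`. -/
theorem exists_beta : ∃ β : KV → KV,
    (∀ x ∈ VV, ∀ y ∈ VV, n • x = 0 → n • y = 0 → β (x + y) = β x + β y) ∧
    (∀ s : G, ∀ x ∈ VV, n • x = 0 → β (gV s x) = gV s (β x)) ∧
    (∀ z ∈ VV, n • z = 0 → gV Ph z - ε • z = β (gV Sg z - z)) := by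
  classical
  obtain ⟨κ, h1, h2, h3⟩ := R.tower.exists_kappa
  refine ⟨fun x => if h : x ∈ VV then (κ ⟨x, h⟩ : KV) else 0, ?_, ?_, ?_⟩
  · intro x hx y hy hnx hny
    simp only [dif_pos hx, dif_pos hy, dif_pos (VV.add_mem hx hy)]
    exact congrArg Subtype.val (h1 ⟨x, hx⟩ ⟨y, hy⟩ (Subtype.ext hnx) (Subtype.ext hny))
  · intro s x hx hnx
    simp only [dif_pos hx, dif_pos (R.gV_mem s x hx)]
    exact congrArg Subtype.val (h2 s ⟨x, hx⟩ (Subtype.ext hnx))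
  · intro z hz hnz
    have hz' : gV Sg z - z ∈ VV := VV.sub_mem (R.gV_mem Sg z hz) hz
    simp only [dif_pos hz']
    have hn0 : n • (⟨z, hz⟩ : VV) = 0 := Subtype.ext hnz
    have hn1 : n • (R.rV Sg ⟨z, hz⟩) = 0 := by rw [← map_nsmul, hn0, map_zero]
    have hn2 : n • (R.rV Sg ⟨z, hz⟩ - ⟨z, hz⟩) = 0 := by rw [smul_sub, hn0, hn1, sub_self]
    have e1 : κ (R.rV Sg ⟨z, hz⟩) = κ (R.rV Sg ⟨z, hz⟩ - ⟨z, hz⟩) + κ ⟨z, hz⟩ := by
      rw [← h1 _ _ hn2 hn0, sub_add_cancel]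
    have e2 := h3 ⟨z, hz⟩ hn0
    rw [← h2 Sg _ hn0, e1, add_sub_cancel_right] at e2
    exact congrArg Subtype.val e2

end RelTower

end Fermat.Agent.S43.GS
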