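import Mathlib

/-!
# S43 / GS / Ring : the Cayley-Hamilton identity `w² (2Φ - t(Φ)) = (2ν - w) C₂` in a noncommutative ring

`S = Σ`, `F = Φ`, `Fs = Φ^* = q Φ⁻¹`, `d = δ`, `ν = S - 1`, `w = d - 1`,
`t(Σ) = S + d S⁻¹`, `t(Φ) = F + Fs`, `t(ΣΦ) = S F + d Fs S⁻¹`, `C₂ = 2 t(ΣΦ) - t(Σ) t(Φ)`.
-/

set_option autoImplicit false

namespace Fermat.Agent.S43.GS

variable {E : Type*} [Ring E]

theorem ring_core (ν F w TF c1 : E) (hwν : w * ν = ν * w) (hνν : ν * ν = w * ν)
    (hstar : ν * F + F * ν = ν * TF + w * F - w * TF + c1)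
    (hE : (2 * ν - w) * (F * ν - ν * F) = 0) :
    w * w * (2 * F - TF) = (2 * ν - w) * (2 * c1 - w * TF) := by
  have hc1 : c1 = ν * F + F * ν - ν * TF - w * F + w * TF := by
    rw [hstar]; abel
  have hA : (2 * ν - w) * ν = w * ν := by
    rw [sub_mul, mul_assoc, hνν]; noncomm_ring
  have hAw : (2 * ν - w) * w = 2 * (w * ν) - w * w := by
    rw [sub_mul, mul_assoc, ← hwν]
  have h1 : 2 * c1 - w * TF
      = 4 * (ν * F) + 2 * (F * ν - ν * F) - 2 * (ν * TF) - 2 * (w * F) + w * TF := by
    rw [hc1]; noncomm_ring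
  have h2 : (2 * ν - w) * (4 * (ν * F) + 2 * (F * ν - ν * F) - 2 * (ν * TF) - 2 * (w * F) + w * TF)
      = 4 * (((2 * ν - w) * ν) * F) + 2 * ((2 * ν - w) * (F * ν - ν * F))
        - 2 * (((2 * ν - w) * ν) * TF) - 2 * (((2 * ν - w) * w) * F) + ((2 * ν - w) * w) * TF := by
    noncomm_ring
  rw [h1, h2, hA, hAw, hE]
  noncomm_ring

theorem ring_star (S Si F Fs d : E) (hSSi : S * Si = 1) (hdS : d * S = S * d)
    (hdF : d * F = F * d) (hT : (F + Fs) * Si = Si * (F + Fs))
    (hr1 : (S - 1) * (S - 1) = (d - 1) * (S - 1)) :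
    S + d * Si = 1 + d ∧
    (S - 1) * F + F * (S - 1) = (S - 1) * (F + Fs) + (d - 1) * F - (d - 1) * (F + Fs)
      + ((S * F + d * (Fs * Si)) - (F + Fs)) := by
  have hSS : S * S = S + d * S - d := by
    have h : S * S - S - S + 1 = d * S - d - S + 1 := by
      have h' := hr1
      simp only [sub_mul, mul_sub, one_mul, mul_one] at h'
      calc S * S - S - S + 1 = S * S - S - (S - 1) := by abel
        _ = d * S - S - (d - 1) := h'
        _ = d * S - d - S + 1 := by abel
    calc S * S = (S * S - S - S + 1) + S + S - 1 := by abel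
      _ = (d * S - d - S + 1) + S + S - 1 := by rw [h]
      _ = S + d * S - d := by abel
  have hTS : S + d * Si = 1 + d := by
    have h := congrArg (fun x => x * Si) hSS
    simp only [add_mul, sub_mul, mul_assoc, hSSi, mul_one] at h
    -- h : S = 1 + d - d * Si
    rw [h]; abel
  refine ⟨hTS, ?_⟩
  -- polarised identity
  have hpol : S * F + F * S = S * (F + Fs) + F * (S + d * Si) - (S + d * Si) * (F + Fs)
      + (S * F + d * (Fs * Si)) := by
    have h3 : F * (d * Si) = d * (F * Si) := by rw [← mul_assoc, ← hdF, mul_assoc]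
    have h4 : d * ((F + Fs) * Si) = d * (Si * (F + Fs)) := by rw [hT]
    have h5 : S * (F + Fs) + F * (S + d * Si) - (S + d * Si) * (F + Fs) + (S * F + d * (Fs * Si))
        = S * F + F * S + (d * ((F + Fs) * Si) - d * (Si * (F + Fs))) := by
      rw [mul_add F, h3]; noncomm_ring
    rw [h5, h4]; abel
  rw [hTS] at hpol
  have h6 : F * (1 + d) = F + d * F := by rw [mul_add, mul_one, hdF]
  rw [h6] at hpol
  have h7 : (S - 1) * F + F * (S - 1) = S * F + F * S - 2 * F := by noncomm_ring
  rw [h7, hpol]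
  noncomm_ring

/-- the exact identity -/
theorem ring_main (S Si F Fs d : E) (hSSi : S * Si = 1) (hdS : d * S = S * d)
    (hdF : d * F = F * d) (hT : (F + Fs) * Si = Si * (F + Fs))
    (hr1 : (S - 1) * (S - 1) = (d - 1) * (S - 1))
    (hE : (2 * (S - 1) - (d - 1)) * (F * (S - 1) - (S - 1) * F) = 0) :
    (d - 1) * (d - 1) * (2 * F - (F + Fs))
      = (2 * (S - 1) - (d - 1)) * (2 * (S * F + d * (Fs * Si)) - (S + d * Si) * (F + Fs)) := by
  obtain ⟨hTS, hstar⟩ := ring_star S Si F Fs d hSSi hdS hdF hT hr1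
  have hwν : (d - 1) * (S - 1) = (S - 1) * (d - 1) := by
    simp only [sub_mul, mul_sub, one_mul, mul_one, hdS]; abel
  have h := ring_core (S - 1) F (d - 1) (F + Fs) ((S * F + d * (Fs * Si)) - (F + Fs)) hwν hr1 hstar hE
  rw [h, hTS]
  congr 1
  noncomm_ring

/-- the congruence `a ≡ b :⇔ (a - b) c = 0`, for a central `c`. -/
def annCon (c : E) (hc : ∀ x, c * x = x * c) : RingCon E where
  r a b := (a - b) * c = 0
  iseqv :=
    { refl := fun a => by rw [sub_self, zero_mul]
      symm := fun {a b} h => by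
        have : (b - a) * c = -((a - b) * c) := by rw [← neg_mul, neg_sub]
        rw [this, h, neg_zero]
      trans := fun {a b e} h h' => by
        have : (a - e) * c = (a - b) * c + (b - e) * c := by rw [← add_mul]; congr 1; abel
        rw [this, h, h', add_zero] }
  mul' := fun {a b e f} h h' => by
    have : (a * e - b * f) * c = ((a - b) * c) * e + b * ((e - f) * c) := by
      rw [mul_assoc (a - b), hc e]; noncomm_ring
    rw [this, h, h', zero_mul, mul_zero, add_zero]
  add' := fun {a b e f} h h' => by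
    have : (a + e - (b + f)) * c = (a - b) * c + (e - f) * c := by rw [← add_mul]; congr 1; abel
    rw [this, h, h', add_zero]

/-- the identity after multiplication by a central element `c` which kills the defects. -/
theorem ring_main_mul (c : E) (hc : ∀ x, c * x = x * c)
    (S Si F Fs d : E) (hSSi : S * Si = 1) (hdS : d * S = S * d)
    (hdF : d * F = F * d) (hT : (F + Fs) * Si = Si * (F + Fs))
    (hr1 : ((S - 1) * (S - 1) - (d - 1) * (S - 1)) * c = 0)
    (hE : ((2 * (S - 1) - (d - 1)) * (F * (S - 1) - (S - 1) * F)) * c = 0) :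
    ((d - 1) * (d - 1) * (2 * F - (F + Fs))) * c
      = ((2 * (S - 1) - (d - 1)) * (2 * (S * F + d * (Fs * Si)) - (S + d * Si) * (F + Fs))) * c := by
  let R := annCon c hc
  let φ : E →+* R.Quotient := R.mk'
  have hφ : ∀ a b : E, φ a = φ b ↔ (a - b) * c = 0 := fun a b => RingCon.eq R
  have h := ring_main (φ S) (φ Si) (φ F) (φ Fs) (φ d)
    (by rw [← map_mul, hSSi, map_one]) (by rw [← map_mul, hdS, map_mul])
    (by rw [← map_mul, hdF, map_mul])
    (by rw [← map_add, ← map_mul, hT, map_mul])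
    (by
      have := (hφ ((S - 1) * (S - 1)) ((d - 1) * (S - 1))).2 hr1
      simpa only [map_mul, map_sub, map_one] using this)
    (by
      have := (hφ ((2 * (S - 1) - (d - 1)) * (F * (S - 1) - (S - 1) * F)) 0).2 (by rw [sub_zero]; exact hE)
      simpa only [map_mul, map_sub, map_one, map_zero, map_ofNat] using this)
  have h' : φ ((d - 1) * (d - 1) * (2 * F - (F + Fs)))
      = φ ((2 * (S - 1) - (d - 1)) * (2 * (S * F + d * (Fs * Si)) - (S + d * Si) * (F + Fs))) := by
    simpa only [map_mul, map_sub, map_add, map_one, map_ofNat] using h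
  have h'' := (hφ _ _).1 h'
  rw [sub_mul] at h''
  exact sub_eq_zero.1 h''

/-- the same for a `c` which only commutes with the five elements (pass to the centraliser of `c`). -/
theorem ring_main_mul' (c : E) (S Si F Fs d : E) (hcS : c * S = S * c) (hcSi : c * Si = Si * c)
    (hcF : c * F = F * c) (hcFs : c * Fs = Fs * c) (hcd : c * d = d * c)
    (hSSi : S * Si = 1) (hdS : d * S = S * d)
    (hdF : d * F = F * d) (hT : (F + Fs) * Si = Si * (F + Fs))
    (hr1 : ((S - 1) * (S - 1) - (d - 1) * (S - 1)) * c = 0)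
    (hE : ((2 * (S - 1) - (d - 1)) * (F * (S - 1) - (S - 1) * F)) * c = 0) :
    ((d - 1) * (d - 1) * (2 * F - (F + Fs))) * c
      = ((2 * (S - 1) - (d - 1)) * (2 * (S * F + d * (Fs * Si)) - (S + d * Si) * (F + Fs))) * c := by
  let E' : Subring E := Subring.centralizer ({c} : Set E)
  have mem : ∀ x, c * x = x * c → x ∈ E' := fun x hx =>
    Subring.mem_centralizer_iff.2 (fun g hg => by rw [Set.mem_singleton_iff.1 hg]; exact hx)
  let φ : E' →+* E := E'.subtype
  have hφ : Function.Injective φ := Subtype.val_injective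
  have h := ring_main_mul (⟨c, mem c rfl⟩ : E')
    (fun x => Subtype.ext (Subring.mem_centralizer_iff.1 x.2 c rfl))
    ⟨S, mem S hcS⟩ ⟨Si, mem Si hcSi⟩ ⟨F, mem F hcF⟩ ⟨Fs, mem Fs hcFs⟩ ⟨d, mem d hcd⟩
    (Subtype.ext hSSi) (Subtype.ext hdS) (Subtype.ext hdF) (Subtype.ext hT)
    (hφ (by
      simp only [map_mul, map_sub, map_one, map_zero]
      exact hr1))
    (hφ (by
      simp only [map_mul, map_sub, map_one, map_zero, map_ofNat]
      exact hE))
  have h' := congrArg φ h
  simp only [map_mul, map_sub, map_add, map_one, map_ofNat] at h'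
  exact h'

end Fermat.Agent.S43.GS
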